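import Fermat.Agent.Gateway.EIS.Weighted

/-!
P-GATEWAY, WP-EIS (helper72).  Behaviour of the weighted Eisenstein series at `i∞`:
for every bounded weight `w` and `3 ≤ k`,

  `eisW k w z ⟶ ∑' d : ℤ, w ![0, d] * d ^ (-k)`   as `im z → ∞`

(no periodicity of `w` is needed: the tail is dominated by the `1`-periodic function `tailNorm`).
-/

set_option autoImplicit false

open UpperHalfPlane Complex Filter Function EisensteinSeries Matrix
open scoped Manifold MatrixGroups Topology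

namespace Fermat.Agent.Gateway.EIS

/-- The norm of the summand at `v`, if `v 0 ≠ 0`; zero otherwise. -/
noncomputable def tailTerm (k : ℤ) (v : Fin 2 → ℤ) (z : ℍ) : ℝ :=
  if v 0 = 0 then 0 else ‖eisSummand k v z‖

/-- The sum of the norms of all summands with `v 0 ≠ 0`. -/
noncomputable def tailNorm (k : ℤ) (z : ℍ) : ℝ := ∑' v : Fin 2 → ℤ, tailTerm k v z

theorem tailTerm_nonneg (k : ℤ) (v : Fin 2 → ℤ) (z : ℍ) : 0 ≤ tailTerm k v z := by
  rw [tailTerm]; split_ifs
  · exact le_rfl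
  · exact norm_nonneg _

theorem tailTerm_le (k : ℤ) (v : Fin 2 → ℤ) (z : ℍ) : tailTerm k v z ≤ ‖eisSummand k v z‖ := by
  rw [tailTerm]; split_ifs
  · exact norm_nonneg _
  · exact le_rfl

theorem summable_tailTerm {k : ℤ} (hk : 3 ≤ k) (z : ℍ) :
    Summable fun v : Fin 2 → ℤ => tailTerm k v z :=
  (summable_norm_eisSummand hk z).of_nonneg_of_le (fun v => tailTerm_nonneg k v z)
    (fun v => tailTerm_le k v z)

theorem tailNorm_nonneg (k : ℤ) (z : ℍ) : 0 ≤ tailNorm k z :=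
  tsum_nonneg fun v => tailTerm_nonneg k v z

/-! ### Invariance of the tail under translations -/

theorem denom_T_zpow (n : ℤ) (z : ℍ) : denom (ModularGroup.T ^ n : SL(2, ℤ)) z = 1 := by
  simp [denom, ModularGroup.coe_T_zpow, -map_zpow]

theorem vecMul_T_zpow_zero (n : ℤ) (v : Fin 2 → ℤ) :
    (v ᵥ* ((ModularGroup.T ^ n : SL(2, ℤ)) : Matrix (Fin 2) (Fin 2) ℤ)) 0 = v 0 := by
  simp [ModularGroup.coe_T_zpow, vecMul, dotProduct, Fin.sum_univ_two]

theorem tailTerm_T_zpow_smul (k n : ℤ) (v : Fin 2 → ℤ) (z : ℍ) :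
    tailTerm k v ((ModularGroup.T ^ n : SL(2, ℤ)) • z) =
      tailTerm k (vecMulEquiv (ModularGroup.T ^ n) v) z := by
  rw [tailTerm, tailTerm, vecMulEquiv_apply, vecMul_T_zpow_zero, eisSummand_SL2_apply,
    denom_T_zpow, _root_.one_zpow, one_mul]

theorem tailNorm_T_zpow_smul (k n : ℤ) (z : ℍ) :
    tailNorm k ((ModularGroup.T ^ n : SL(2, ℤ)) • z) = tailNorm k z := by
  simp only [tailNorm, tailTerm_T_zpow_smul]
  exact (vecMulEquiv (ModularGroup.T ^ n)).tsum_eq (fun v => tailTerm k v z)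

/-! ### The tail tends to zero -/

theorem im_le_norm_linear {v : Fin 2 → ℤ} (hv : v 0 ≠ 0) (z : ℍ) :
    z.im ≤ ‖(v 0 : ℂ) * (z : ℂ) + v 1‖ := by
  have h1 : |((v 0 : ℂ) * (z : ℂ) + v 1).im| ≤ ‖(v 0 : ℂ) * (z : ℂ) + v 1‖ := Complex.abs_im_le_norm _
  have h2 : ((v 0 : ℂ) * (z : ℂ) + v 1).im = (v 0 : ℝ) * z.im := by
    simp
  rw [h2, abs_mul, abs_of_pos z.im_pos] at h1
  have h3 : (1 : ℝ) ≤ |(v 0 : ℝ)| := by
    have : (1 : ℤ) ≤ |v 0| := Int.one_le_abs hv
    exact_mod_cast this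
  calc z.im = 1 * z.im := (one_mul _).symm
    _ ≤ |(v 0 : ℝ)| * z.im := mul_le_mul_of_nonneg_right h3 z.im_pos.le
    _ ≤ _ := h1

theorem tailTerm_le_im_zpow {k : ℤ} (hk : 0 ≤ k) (v : Fin 2 → ℤ) (z : ℍ) :
    tailTerm k v z ≤ z.im ^ (-k) := by
  rw [tailTerm]
  split_ifs with h
  · exact zpow_nonneg z.im_pos.le _
  · rw [eisSummand, norm_zpow, _root_.zpow_neg, _root_.zpow_neg]
    have h1 := im_le_norm_linear h z
    have h2 : z.im ^ k ≤ ‖(v 0 : ℂ) * (z : ℂ) + v 1‖ ^ k :=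
      zpow_le_zpow_left₀ hk z.im_pos.le h1
    exact inv_anti₀ (zpow_pos z.im_pos k) h2

theorem tendsto_tailTerm_atImInfty {k : ℤ} (hk : 1 ≤ k) (v : Fin 2 → ℤ) :
    Tendsto (fun z : ℍ => tailTerm k v z) atImInfty (𝓝 0) := by
  have h0 : Tendsto (fun z : ℍ => z.im ^ (-k)) atImInfty (𝓝 0) := by
    have h1 : Tendsto (fun x : ℝ => x ^ (-k)) atTop (𝓝 0) := by
      obtain ⟨m, rfl⟩ : ∃ m : ℕ, k = m := ⟨k.toNat, (Int.toNat_of_nonneg (by omega)).symm⟩
      have hm : m ≠ 0 := by omega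
      have := tendsto_pow_neg_atTop (𝕜 := ℝ) hm
      simpa using this
    exact h1.comp tendsto_comap
  exact squeeze_zero (fun z => tailTerm_nonneg k v z)
    (fun z => tailTerm_le_im_zpow (by omega) v z) h0

theorem tendsto_tailNorm_strip {k : ℤ} (hk : 3 ≤ k) :
    Tendsto (tailNorm k) (atImInfty ⊓ 𝓟 (verticalStrip 1 1)) (𝓝 0) := by
  have hk' : (2 : ℝ) < k := by norm_cast
  have p_sum : Summable fun x : Fin 2 → ℤ ↦ ‖x‖ ^ (-k) :=
    mod_cast (summable_one_div_norm_rpow hk')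
  have key := tendsto_tsum_of_dominated_convergence
    (𝓕 := atImInfty ⊓ 𝓟 (verticalStrip 1 1))
    (f := fun (z : ℍ) (v : Fin 2 → ℤ) => tailTerm k v z) (g := fun _ => (0 : ℝ))
    (p_sum.mul_left <| r ⟨⟨1, 1⟩, one_pos⟩ ^ (-k : ℝ))
    (fun v => (tendsto_tailTerm_atImInfty (by omega) v).mono_left inf_le_left) ?_
  · have h0 : (∑' _ : Fin 2 → ℤ, (0 : ℝ)) = 0 := tsum_zero
    rw [h0] at key
    exact key
  · refine Eventually.filter_mono inf_le_right ?_
    rw [eventually_principal]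
    intro z hz v
    rw [Real.norm_of_nonneg (tailTerm_nonneg k v z)]
    refine (tailTerm_le k v z).trans ?_
    simpa only [eisSummand, one_div, ← _root_.zpow_neg, norm_zpow, ← Real.rpow_intCast,
      Int.cast_neg] using summand_bound_of_mem_verticalStrip (by positivity) v one_pos hz

theorem tendsto_tailNorm_atImInfty {k : ℤ} (hk : 3 ≤ k) :
    Tendsto (tailNorm k) atImInfty (𝓝 0) := by
  rw [tendsto_def]
  intro U hU
  have h1 := tendsto_def.mp (tendsto_tailNorm_strip hk) U hU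
  rw [mem_inf_principal, atImInfty_mem] at h1
  obtain ⟨A, hA⟩ := h1
  rw [atImInfty_mem]
  refine ⟨max A 1, fun z hz => ?_⟩
  obtain ⟨n, hn⟩ := ModularGroup_T_zpow_mem_verticalStrip z (N := 1) one_pos
  have hn' : (ModularGroup.T ^ ((1 : ℕ) * n) : SL(2, ℤ)) • z ∈ verticalStrip 1 1 := by
    refine verticalStrip_anti_right _ ((le_max_right A 1).trans hz) ?_
    simpa using hn
  have h2 := hA _ (by rw [ModularGroup.im_T_zpow_smul]; exact (le_max_left A 1).trans hz) hn'
  rw [Set.mem_preimage, tailNorm_T_zpow_smul] at h2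
  exact h2

/-! ### The limit of the weighted Eisenstein series -/

/-- The value at `i∞` of the weighted Eisenstein series. -/
noncomputable def eisWInfty (k : ℤ) (w : (Fin 2 → ℤ) → ℂ) : ℂ :=
  ∑' d : ℤ, w ![0, d] * (d : ℂ) ^ (-k)

/-- The part of the summand with `v 0 = 0` (independent of `z`). -/
noncomputable def headTerm (k : ℤ) (w : (Fin 2 → ℤ) → ℂ) (v : Fin 2 → ℤ) : ℂ :=
  if v 0 = 0 then w v * (v 1 : ℂ) ^ (-k) else 0

/-- The part of the summand with `v 0 ≠ 0`. -/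
noncomputable def tailPart (k : ℤ) (w : (Fin 2 → ℤ) → ℂ) (v : Fin 2 → ℤ) (z : ℍ) : ℂ :=
  if v 0 = 0 then 0 else w v * eisSummand k v z

theorem headTerm_add_tailPart (k : ℤ) (w : (Fin 2 → ℤ) → ℂ) (v : Fin 2 → ℤ) (z : ℍ) :
    headTerm k w v + tailPart k w v z = w v * eisSummand k v z := by
  rw [headTerm, tailPart]
  split_ifs with h
  · simp [eisSummand, h]
  · simp

theorem norm_headTerm_le (k : ℤ) (w : (Fin 2 → ℤ) → ℂ) (v : Fin 2 → ℤ) (z : ℍ) :
    ‖headTerm k w v‖ ≤ ‖w v * eisSummand k v z‖ := by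
  rw [headTerm]
  split_ifs with h
  · simp [eisSummand, h]
  · rw [norm_zero]
    exact norm_nonneg _

theorem norm_tailPart_le {C : ℝ} {w : (Fin 2 → ℤ) → ℂ} (hC : ∀ v, ‖w v‖ ≤ C) (k : ℤ)
    (v : Fin 2 → ℤ) (z : ℍ) : ‖tailPart k w v z‖ ≤ C * tailTerm k v z := by
  rw [tailPart, tailTerm]
  split_ifs with h
  · simp
  · rw [norm_mul]
    exact mul_le_mul_of_nonneg_right (hC v) (norm_nonneg _)

theorem tsum_headTerm (k : ℤ) (w : (Fin 2 → ℤ) → ℂ) :
    ∑' v : Fin 2 → ℤ, headTerm k w v = eisWInfty k w := by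
  have hinj : Function.Injective (fun d : ℤ => (![0, d] : Fin 2 → ℤ)) := by
    intro a b hab
    have := congrFun hab 1
    simpa using this
  have hsupp : Function.support (headTerm k w) ⊆ Set.range (fun d : ℤ => (![0, d] : Fin 2 → ℤ)) := by
    intro v hv
    have h0 : v 0 = 0 := by
      by_contra h
      exact hv (by rw [headTerm, if_neg h])
    refine ⟨v 1, ?_⟩
    funext i
    fin_cases i
    · simp [h0]
    · simp
  rw [← hinj.tsum_eq hsupp, eisWInfty]
  refine tsum_congr fun d => ?_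
  simp [headTerm]

theorem norm_eisW_sub_le {k : ℤ} (hk : 3 ≤ k) {C : ℝ} {w : (Fin 2 → ℤ) → ℂ}
    (hC : ∀ v, ‖w v‖ ≤ C) (z : ℍ) : ‖eisW k w z - eisWInfty k w‖ ≤ C * tailNorm k z := by
  have hw : BddWeight w := ⟨C, hC⟩
  have hC0 : 0 ≤ C := (norm_nonneg _).trans (hC 0)
  have hsum := summable_norm_eisW_term hk hw z
  have hhead : Summable (headTerm k w) :=
    (hsum.of_nonneg_of_le (fun _ => norm_nonneg _) (fun v => norm_headTerm_le k w v z)).of_norm
  have htailn : Summable fun v => ‖tailPart k w v z‖ :=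
    ((summable_tailTerm hk z).mul_left C).of_nonneg_of_le (fun _ => norm_nonneg _)
      (fun v => norm_tailPart_le hC k v z)
  have htail : Summable fun v => tailPart k w v z := htailn.of_norm
  have h1 : eisW k w z = eisWInfty k w + ∑' v, tailPart k w v z := by
    rw [← tsum_headTerm, ← hhead.tsum_add htail, eisW]
    exact tsum_congr fun v => (headTerm_add_tailPart k w v z).symm
  rw [h1, add_sub_cancel_left]
  calc ‖∑' v, tailPart k w v z‖ ≤ ∑' v, ‖tailPart k w v z‖ := norm_tsum_le_tsum_norm htailn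
    _ ≤ ∑' v, C * tailTerm k v z :=
        htailn.tsum_le_tsum (fun v => norm_tailPart_le hC k v z) ((summable_tailTerm hk z).mul_left C)
    _ = C * tailNorm k z := by rw [tailNorm, tsum_mul_left]

/-- **Limit at `i∞`** of a weighted Eisenstein series with bounded weight. -/
theorem tendsto_eisW_atImInfty {k : ℤ} (hk : 3 ≤ k) {w : (Fin 2 → ℤ) → ℂ} (hw : BddWeight w) :
    Tendsto (eisW k w) atImInfty (𝓝 (eisWInfty k w)) := by
  obtain ⟨C, hC⟩ := hw
  rw [tendsto_iff_norm_sub_tendsto_zero]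
  have h0 : Tendsto (fun z => C * tailNorm k z) atImInfty (𝓝 0) := by
    simpa using (tendsto_tailNorm_atImInfty hk).const_mul C
  exact squeeze_zero (fun _ => norm_nonneg _) (fun z => norm_eisW_sub_le hk hC z) h0

/-- A weighted Eisenstein series with bounded weight is bounded at `i∞`. -/
theorem isBoundedAtImInfty_eisW {k : ℤ} (hk : 3 ≤ k) {w : (Fin 2 → ℤ) → ℂ} (hw : BddWeight w) :
    IsBoundedAtImInfty (eisW k w) :=
  (tendsto_eisW_atImInfty hk hw).isBigO_one ℝ

/-- If the value at `i∞` is nonzero, the series is not identically zero. -/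
theorem eisW_ne_zero_of_eisWInfty_ne_zero {k : ℤ} (hk : 3 ≤ k) {w : (Fin 2 → ℤ) → ℂ}
    (hw : BddWeight w) (h : eisWInfty k w ≠ 0) : ∃ z : ℍ, eisW k w z ≠ 0 := by
  by_contra hcon
  have hcon : ∀ z : ℍ, eisW k w z = 0 := fun z => by
    by_contra hz
    exact hcon ⟨z, hz⟩
  have h1 : Tendsto (eisW k w) atImInfty (𝓝 0) := by
    have : eisW k w = fun _ => 0 := funext hcon
    rw [this]
    exact tendsto_const_nhds
  have : (atImInfty : Filter ℍ).NeBot := by
    rw [atImInfty]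
    exact (Filter.comap_neBot_iff_frequently).mpr <| by
      refine Filter.Eventually.frequently ?_
      filter_upwards [eventually_gt_atTop 0] with a ha
      exact ⟨⟨⟨0, a⟩, ha⟩, rfl⟩
  exact h (tendsto_nhds_unique (tendsto_eisW_atImInfty hk hw) h1)

end Fermat.Agent.Gateway.EIS
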