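import Fermat.Agent.Gateway.EIS.TwistedInfty
import Fermat.Agent.Gateway.A2.Defs
import Fermat.Agent.S24.CuspOrdMer

/-!
P-GATEWAY, WP-EIS (helper72).  The meromorphic function `hChi Γ χ = E_χ / E_1` (weight `4`
twisted Eisenstein series over the untwisted one) attached to an admissible character
`χ : Γ →* ℂˣ` (norm one values, trivial on elements of trace `± 2`):

* `hChi_ne_zero`,
* `inv_smul_hChi : (γ : SL(2, ℤ))⁻¹ • hChi Γ χ = const (χ γ) * hChi Γ χ` for `γ : Γ`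
  (i.e. `hChi (γ τ) = χ γ * hChi τ`),
* `isCuspMer_smul_hChi : IsCuspMer N (g • hChi Γ χ)` for all `g : SL(2, ℤ)` when `Γ(N) ≤ Γ`.
-/

set_option autoImplicit false

open UpperHalfPlane Complex Filter Function EisensteinSeries Matrix
open Fermat.Agent.S24 Fermat.Agent.S24.CuspOrd
open scoped Manifold MatrixGroups Topology

namespace Fermat.Agent.Gateway.EIS

/-- Admissible characters: values of norm one, trivial on the elements of trace `± 2`. -/
structure AdmChar (Γ : Subgroup SL(2, ℤ)) (χ : Γ →* ℂˣ) : Prop where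
  norm_one : ∀ γ : Γ, ‖((χ γ : ℂˣ) : ℂ)‖ = 1
  par : ∀ γ : Γ, (((γ : SL(2, ℤ)) : Matrix (Fin 2) (Fin 2) ℤ).trace) ^ 2 = 4 → χ γ = 1

variable {Γ : Subgroup SL(2, ℤ)} {χ : Γ →* ℂˣ}

theorem AdmChar.one (Γ : Subgroup SL(2, ℤ)) : AdmChar Γ (1 : Γ →* ℂˣ) :=
  ⟨fun _ => by simp, fun _ _ => rfl⟩

/-- Characters of finite order that are trivial on parabolic and elliptic elements (and `± 1`)
are admissible. -/
theorem AdmChar.of_isPE {n : ℕ} (hn : n ≠ 0) (hχn : χ ^ n = 1)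
    (h : ∀ γ : Γ, A2.IsPE (γ : SL(2, ℤ)) → χ γ = 1) : AdmChar Γ χ :=
  ⟨norm_eq_one_of_pow_eq_one hn hχn, fun γ hγ => h γ (by rw [A2.IsPE, hγ])⟩

theorem AdmChar.trivOnStabInfty (h : AdmChar Γ χ) : TrivOnStabInfty Γ χ :=
  trivOnStabInfty_of_trace h.par

theorem AdmChar.trivOnUnip (h : AdmChar Γ χ) : TrivOnUnip Γ χ :=
  h.trivOnStabInfty.trivOnUnip

theorem AdmChar.bddWeight (h : AdmChar Γ χ) : BddWeight (rowWeight Γ χ) :=
  bddWeight_rowWeight h.norm_one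

/-! ### Weighted series as elements of `HolFun` -/

open Classical in
/-- The weight `4` weighted Eisenstein series as an element of `HolFun` (zero for unbounded
weights). -/
noncomputable def eisHol (w : (Fin 2 → ℤ) → ℂ) : HolFun :=
  if h : BddWeight w then ⟨eisW 4 w, mdifferentiable_eisW (by norm_num) h⟩ else 0

theorem eisHol_apply {w : (Fin 2 → ℤ) → ℂ} (hw : BddWeight w) (z : ℍ) :
    (eisHol w : ℍ → ℂ) z = eisW 4 w z := by
  rw [eisHol, dif_pos hw]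

theorem eisHol_ne_zero {w : (Fin 2 → ℤ) → ℂ} (hw : BddWeight w) (h : eisWInfty 4 w ≠ 0) :
    eisHol w ≠ 0 := by
  obtain ⟨z, hz⟩ := eisW_ne_zero_of_eisWInfty_ne_zero (by norm_num) hw h
  intro h0
  apply hz
  rw [← eisHol_apply hw, h0]
  rfl

/-- The slash of `eisHol w` by `g` is `denom ^ 4` times `eisHol` of the transported weight. -/
theorem smul_eisHol_apply {w : (Fin 2 → ℤ) → ℂ} (hw : BddWeight w) (g : SL(2, ℤ)) (z : ℍ) :
    ((g • eisHol w : HolFun) : ℍ → ℂ) z =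
      denom (g⁻¹ : SL(2, ℤ)) z ^ (4 : ℤ) * (eisHol (slashWeight g⁻¹ w) : ℍ → ℂ) z := by
  rw [HolFun.sl_smul_apply, eisHol_apply hw, eisHol_apply (hw.slashWeight _), eisW_smul]

theorem isBoundedAtImInfty_eisHol {w : (Fin 2 → ℤ) → ℂ} (hw : BddWeight w) :
    IsBoundedAtImInfty (eisHol w : ℍ → ℂ) := by
  have : (eisHol w : ℍ → ℂ) = eisW 4 w := funext (eisHol_apply hw)
  rw [this]
  exact isBoundedAtImInfty_eisW (by norm_num) hw

/-- A bounded weight invariant under `v ↦ v ᵥ* T ^ N` gives an `N`-periodic cusp function. -/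
theorem eisHol_mem_cuspFnAlg {w : (Fin 2 → ℤ) → ℂ} (hw : BddWeight w) (N : ℕ)
    (hper : slashWeight (ModularGroup.T ^ (N : ℤ)) w = w) : eisHol w ∈ cuspFnAlg N := by
  rw [mem_cuspFnAlg]
  refine ⟨HolFun.mdiff (eisHol w), ?_, ⟨0, ?_⟩⟩
  · intro z
    have h1 : ((N : ℕ) : ℝ) +ᵥ z = (ModularGroup.T ^ (N : ℤ) : SL(2, ℤ)) • z := by
      rw [modular_T_zpow_smul]
      simp
    rw [h1, eisHol_apply hw, eisHol_apply hw, eisW_smul, hper, denom_T_zpow, _root_.one_zpow,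
      one_mul]
  · simpa using isBoundedAtImInfty_eisHol hw

/-! ### The functions `E_χ` and `h_χ` -/

variable (Γ χ)

/-- The weight `4` Eisenstein series twisted by `χ`, as an element of `HolFun`. -/
noncomputable def EChi : HolFun := eisHol (rowWeight Γ χ)

/-- The meromorphic function `h_χ = E_χ / E_1`. -/
noncomputable def hChi : MerFun :=
  algebraMap HolFun MerFun (EChi Γ χ) / algebraMap HolFun MerFun (EChi Γ 1)

variable {Γ χ}

theorem EChi_apply (h : AdmChar Γ χ) (z : ℍ) : (EChi Γ χ : ℍ → ℂ) z = eisChi Γ χ 4 z :=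
  eisHol_apply h.bddWeight z

theorem EChi_ne_zero (h : AdmChar Γ χ) : EChi Γ χ ≠ 0 :=
  eisHol_ne_zero h.bddWeight (eisWInfty_rowWeight_ne_zero h.trivOnStabInfty (by decide))

theorem hChi_ne_zero (h : AdmChar Γ χ) : hChi Γ χ ≠ 0 :=
  div_ne_zero (algebraMap_ne_zero (EChi_ne_zero h)) (algebraMap_ne_zero (EChi_ne_zero (AdmChar.one Γ)))

/-- The transformation law of `E_χ` in `HolFun`, pointwise. -/
theorem inv_smul_EChi_apply (h : AdmChar Γ χ) (γ : Γ) (z : ℍ) :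
    ((((γ : SL(2, ℤ))⁻¹ • EChi Γ χ : HolFun)) : ℍ → ℂ) z =
      ((χ γ : ℂˣ) : ℂ) * denom (γ : SL(2, ℤ)) z ^ (4 : ℤ) * (EChi Γ χ : ℍ → ℂ) z := by
  rw [HolFun.sl_smul_apply, inv_inv, EChi_apply h, EChi_apply h, eisChi_smul h.trivOnUnip]

/-- **Transformation law of `h_χ`**: `h_χ (γ τ) = χ γ * h_χ τ` for `γ ∈ Γ`, in the form
`γ⁻¹ • h_χ = χ γ * h_χ`. -/
theorem inv_smul_hChi (h : AdmChar Γ χ) (γ : Γ) :
    (γ : SL(2, ℤ))⁻¹ • hChi Γ χ =
      algebraMap HolFun MerFun (algebraMap ℂ HolFun ((χ γ : ℂˣ) : ℂ)) * hChi Γ χ := by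
  have h1 := AdmChar.one Γ
  have hE1 : algebraMap HolFun MerFun (EChi Γ 1) ≠ 0 := algebraMap_ne_zero (EChi_ne_zero h1)
  have hE1' : algebraMap HolFun MerFun ((γ : SL(2, ℤ))⁻¹ • EChi Γ 1) ≠ 0 := by
    refine algebraMap_ne_zero ?_
    rw [Ne, smul_eq_zero_iff_eq]
    exact EChi_ne_zero h1
  rw [hChi, smul_div₀', MerFun.sl_smul_algebraMap, MerFun.sl_smul_algebraMap, mul_div_assoc',
    div_eq_div_iff hE1' hE1, ← map_mul, ← map_mul, ← map_mul]
  congr 1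
  ext z
  simp only [HolFun.coe_mul_apply, inv_smul_EChi_apply h, inv_smul_EChi_apply h1,
    HolFun.coe_algebraMap, MonoidHom.one_apply, Units.val_one]
  ring

/-- Variant: `γ • h_χ = (χ γ)⁻¹ * h_χ`. -/
theorem smul_hChi (h : AdmChar Γ χ) (γ : Γ) :
    (γ : SL(2, ℤ)) • hChi Γ χ =
      algebraMap HolFun MerFun (algebraMap ℂ HolFun (((χ γ)⁻¹ : ℂˣ) : ℂ)) * hChi Γ χ := by
  have := inv_smul_hChi h γ⁻¹
  rwa [Subgroup.coe_inv, inv_inv, map_inv] at this

/-! ### Behaviour at all cusps -/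

theorem Gamma_le_Gamma0 (N : ℕ) : CongruenceSubgroup.Gamma N ≤ CongruenceSubgroup.Gamma0 N := by
  intro γ hγ
  rw [CongruenceSubgroup.Gamma_mem] at hγ
  rw [CongruenceSubgroup.Gamma0_mem]
  exact hγ.2.2.1

/-- The conjugate `g T^N g⁻¹` lies in `Γ(N)`. -/
theorem conj_T_zpow_mem_Gamma (N : ℕ) (g : SL(2, ℤ)) :
    g * ModularGroup.T ^ (N : ℤ) * g⁻¹ ∈ CongruenceSubgroup.Gamma N := by
  have h1 : ModularGroup.T ^ (N : ℤ) ∈ CongruenceSubgroup.Gamma N := by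
    have := CongruenceSubgroup.ModularGroup_T_pow_mem_Gamma (N : ℤ) (N : ℤ) dvd_rfl
    simpa using this
  exact (CongruenceSubgroup.Gamma_normal N).conj_mem _ h1 g

theorem trace_conj_T_zpow (n : ℤ) (g : SL(2, ℤ)) :
    ((g * ModularGroup.T ^ n * g⁻¹ : SL(2, ℤ)) : Matrix (Fin 2) (Fin 2) ℤ).trace = 2 := by
  rw [Matrix.SpecialLinearGroup.coe_mul, Matrix.trace_mul_comm, ← Matrix.SpecialLinearGroup.coe_mul,
    ← mul_assoc, inv_mul_cancel, one_mul, ModularGroup.coe_T_zpow, Matrix.trace_fin_two]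
  simp

/-- The weight of `E_χ` transported to the cusp `g` is invariant under `T ^ N`. -/
theorem slashWeight_T_zpow_slashWeight_rowWeight (h : AdmChar Γ χ) {N : ℕ}
    (hΓ : CongruenceSubgroup.Gamma N ≤ Γ) (g : SL(2, ℤ)) :
    slashWeight (ModularGroup.T ^ (N : ℤ)) (slashWeight g (rowWeight Γ χ)) =
      slashWeight g (rowWeight Γ χ) := by
  let δ : Γ := ⟨g * ModularGroup.T ^ (N : ℤ) * g⁻¹, hΓ (conj_T_zpow_mem_Gamma N g)⟩
  have hχδ : χ δ = 1 := by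
    refine h.par δ ?_
    show (((g * ModularGroup.T ^ (N : ℤ) * g⁻¹ : SL(2, ℤ)) :
      Matrix (Fin 2) (Fin 2) ℤ).trace) ^ 2 = 4
    rw [trace_conj_T_zpow]
    norm_num
  have h1 : g * ModularGroup.T ^ (N : ℤ) = (δ : SL(2, ℤ)) * g := by
    show g * ModularGroup.T ^ (N : ℤ) = g * ModularGroup.T ^ (N : ℤ) * g⁻¹ * g
    rw [inv_mul_cancel_right]
  rw [← slashWeight_mul, h1, slashWeight_mul, slashWeight_rowWeight h.trivOnUnip, hχδ]
  simp

theorem eisHol_slashWeight_mem_cuspFnAlg (h : AdmChar Γ χ) {N : ℕ}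
    (hΓ : CongruenceSubgroup.Gamma N ≤ Γ) (g : SL(2, ℤ)) :
    eisHol (slashWeight g (rowWeight Γ χ)) ∈ cuspFnAlg N :=
  eisHol_mem_cuspFnAlg (h.bddWeight.slashWeight g) N
    (slashWeight_T_zpow_slashWeight_rowWeight h hΓ g)

/-- `g • h_χ` as a quotient of the Eisenstein series with transported weights. -/
theorem smul_hChi_eq (h : AdmChar Γ χ) (g : SL(2, ℤ)) :
    g • hChi Γ χ =
      algebraMap HolFun MerFun (eisHol (slashWeight g⁻¹ (rowWeight Γ χ))) /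
        algebraMap HolFun MerFun (eisHol (slashWeight g⁻¹ (rowWeight Γ 1))) ∧
      eisHol (slashWeight g⁻¹ (rowWeight Γ (1 : Γ →* ℂˣ))) ≠ 0 := by
  have h1 := AdmChar.one Γ
  have hE1' : g • EChi Γ 1 ≠ 0 := by
    rw [Ne, smul_eq_zero_iff_eq]
    exact EChi_ne_zero h1
  have hB : eisHol (slashWeight g⁻¹ (rowWeight Γ (1 : Γ →* ℂˣ))) ≠ 0 := by
    intro h0
    apply hE1'
    ext z
    rw [EChi, smul_eisHol_apply h1.bddWeight, h0]
    simp
  refine ⟨?_, hB⟩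
  rw [hChi, smul_div₀', MerFun.sl_smul_algebraMap, MerFun.sl_smul_algebraMap,
    div_eq_div_iff (algebraMap_ne_zero hE1') (algebraMap_ne_zero hB), ← map_mul, ← map_mul]
  congr 1
  ext z
  simp only [HolFun.coe_mul_apply, EChi, smul_eisHol_apply h.bddWeight,
    smul_eisHol_apply h1.bddWeight]
  ring

/-- **Behaviour at the cusps**: every `SL(2, ℤ)`-translate of `h_χ` is a quotient of
`N`-periodic holomorphic functions that are bounded at `i∞`. -/
theorem isCuspMer_smul_hChi (h : AdmChar Γ χ) {N : ℕ} (hΓ : CongruenceSubgroup.Gamma N ≤ Γ)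
    (g : SL(2, ℤ)) : IsCuspMer N (g • hChi Γ χ) := by
  obtain ⟨h1, h2⟩ := smul_hChi_eq h g
  exact ⟨_, _, eisHol_slashWeight_mem_cuspFnAlg h hΓ g⁻¹,
    eisHol_slashWeight_mem_cuspFnAlg (AdmChar.one Γ) hΓ g⁻¹, h2, h1⟩

end Fermat.Agent.Gateway.EIS
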