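import Fermat.Agent.Gateway.EIS.HChi
import Fermat.Agent.Gateway.A2.CountPE
import Fermat.Agent.Gateway.Root.Main

/-!
P-GATEWAY, WP-EIS (helper90, on top of helper72's `EIS/HChi.lean`): final export in the pinned
presentation of characters.

For `χ : A2.Count.charPE (Γ₀(N)) (rootsOfUnity n ℂ)` (a character of `Γ₀(N)` with values in the
`n`-th roots of unity, trivial on parabolic and elliptic elements and on `±1`) the meromorphic
function `hChiPE χ = E_χ / E_1` on `ℍ` is nonzero, transforms by `χ` under `Γ₀(N)`: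
`hChiPE(γ z) = χ(γ) hChiPE(z)`, its `n`-th power is `Γ₀(N)`-invariant, and all its
`SL(2, ℤ)`-translates are meromorphic at `i∞` (`IsCuspMer N`).  This is the input for the
surjectivity of `Θ_m : J_ℂ[m] → charPE Γ₀(N) μ_m`.
-/

set_option autoImplicit false

open UpperHalfPlane Complex Filter Function EisensteinSeries Matrix
open scoped Manifold MatrixGroups Topology

namespace Fermat.Agent.Gateway.EIS

open Fermat.Agent.S24 Fermat.Agent.S24.CuspOrd Fermat.Agent.Gateway.Root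

section RootsOfUnity

variable {Γ : Subgroup SL(2, ℤ)} {n : ℕ}

/-- A character with values in `μ_n(ℂ)` viewed as a character with values in `ℂˣ`. -/
def unitsChar (χ : Γ →* rootsOfUnity n ℂ) : Γ →* ℂˣ := (rootsOfUnity n ℂ).subtype.comp χ

@[simp] theorem unitsChar_apply (χ : Γ →* rootsOfUnity n ℂ) (γ : Γ) :
    unitsChar χ γ = (χ γ : ℂˣ) := rfl

theorem unitsChar_pow_eq_one (χ : Γ →* rootsOfUnity n ℂ) (γ : Γ) :
    ((unitsChar χ γ : ℂˣ) : ℂ) ^ n = 1 := by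
  have h1 : ((χ γ : ℂˣ)) ^ n = 1 := (_root_.mem_rootsOfUnity n _).1 (χ γ).2
  rw [unitsChar_apply, ← Units.val_pow_eq_pow_val, h1, Units.val_one]

theorem norm_unitsChar [NeZero n] (χ : Γ →* rootsOfUnity n ℂ) (γ : Γ) :
    ‖((unitsChar χ γ : ℂˣ) : ℂ)‖ = 1 :=
  Complex.norm_eq_one_of_pow_eq_one (unitsChar_pow_eq_one χ γ) (NeZero.ne n)

theorem unitsChar_eq_one_of_isPE (χ : A2.Count.charPE Γ (rootsOfUnity n ℂ)) (γ : Γ)
    (h : A2.IsPE (γ : SL(2, ℤ))) : unitsChar χ.1 γ = 1 := by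
  rw [unitsChar_apply, χ.2 γ h]
  rfl

/-- Characters in `charPE Γ μ_n` are admissible. -/
theorem admChar_unitsChar [NeZero n] (χ : A2.Count.charPE Γ (rootsOfUnity n ℂ)) :
    AdmChar Γ (unitsChar χ.1) :=
  ⟨norm_unitsChar χ.1, fun γ hγ => unitsChar_eq_one_of_isPE χ γ (by rw [A2.IsPE, hγ])⟩

/-- The function `E_χ / E_1` attached to `χ ∈ charPE Γ μ_n`. -/
noncomputable def hChiPE (χ : A2.Count.charPE Γ (rootsOfUnity n ℂ)) : MerFun :=
  hChi Γ (unitsChar χ.1)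

variable [NeZero n]

theorem hChiPE_ne_zero (χ : A2.Count.charPE Γ (rootsOfUnity n ℂ)) : hChiPE χ ≠ 0 :=
  hChi_ne_zero (admChar_unitsChar χ)

/-- `hChiPE χ (γ z) = χ(γ) · hChiPE χ (z)`, in the `S24` action convention. -/
theorem inv_smul_hChiPE (χ : A2.Count.charPE Γ (rootsOfUnity n ℂ)) (γ : Γ) :
    (γ : SL(2, ℤ))⁻¹ • hChiPE χ = cst (((χ.1 γ : rootsOfUnity n ℂ) : ℂˣ) : ℂ) * hChiPE χ :=
  inv_smul_hChi (admChar_unitsChar χ) γ

/-- `hChiPE χ ^ n` is `Γ`-invariant. -/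
theorem smul_hChiPE_pow (χ : A2.Count.charPE Γ (rootsOfUnity n ℂ)) (γ : Γ) :
    (γ : SL(2, ℤ)) • (hChiPE χ ^ n) = hChiPE χ ^ n := by
  have h := inv_smul_hChiPE χ γ⁻¹
  rw [Subgroup.coe_inv, inv_inv] at h
  rw [smul_pow', h, mul_pow, ← cst_pow]
  have h2 := unitsChar_pow_eq_one χ.1 γ⁻¹
  rw [unitsChar_apply] at h2
  rw [h2, cst_one, one_mul]

theorem isCuspMer_smul_hChiPE {N : ℕ} (hΓ : CongruenceSubgroup.Gamma N ≤ Γ)
    (χ : A2.Count.charPE Γ (rootsOfUnity n ℂ)) (g : SL(2, ℤ)) : IsCuspMer N (g • hChiPE χ) :=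
  isCuspMer_smul_hChi (admChar_unitsChar χ) hΓ g

end RootsOfUnity

/-- **WP-EIS, final export.**  For every `χ ∈ charPE Γ₀(N) μ_n` there is a nonzero meromorphic
function `h` on `ℍ` with `h(γ z) = χ(γ) h(z)` for `γ ∈ Γ₀(N)`, with `h ^ n` invariant under
`Γ₀(N)`, all of whose `SL(2, ℤ)`-translates are meromorphic at `i∞` in the parameter `q_N`. -/
theorem exists_hChi (N n : ℕ) [NeZero n]
    (χ : A2.Count.charPE (CongruenceSubgroup.Gamma0 N) (rootsOfUnity n ℂ)) :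
    ∃ h : MerFun, h ≠ 0 ∧
      (∀ γ : CongruenceSubgroup.Gamma0 N,
        (γ : SL(2, ℤ))⁻¹ • h = cst (((χ.1 γ : rootsOfUnity n ℂ) : ℂˣ) : ℂ) * h) ∧
      (∀ γ : CongruenceSubgroup.Gamma0 N, (γ : SL(2, ℤ)) • (h ^ n) = h ^ n) ∧
      ∀ g : SL(2, ℤ), IsCuspMer N (g • h) :=
  ⟨hChiPE χ, hChiPE_ne_zero χ, inv_smul_hChiPE χ, smul_hChiPE_pow χ,
    isCuspMer_smul_hChiPE (Gamma_le_Gamma0 N) χ⟩

end Fermat.Agent.Gateway.EIS
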