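import Fermat.Agent.Gateway.EIS.Weighted

/-!
P-GATEWAY, WP-EIS (helper72).  The Eisenstein series twisted by a character `χ : Γ →* ℂˣ` of a
subgroup `Γ ≤ SL(2, ℤ)`:

  `eisChi Γ χ k z = ∑_{v bottom row of some γ ∈ Γ} χ(γ)⁻¹ (v 0 * z + v 1) ^ (-k)`,

realised as `eisW k (rowWeight Γ χ)`.  If `χ` is trivial on the upper unipotent elements of `Γ`
the weight is well defined on rows and `eisChi (γ • z) = χ γ * denom γ z ^ k * eisChi z`.
-/

set_option autoImplicit false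

open UpperHalfPlane Complex Filter Function EisensteinSeries Matrix
open scoped Manifold MatrixGroups Topology

namespace Fermat.Agent.Gateway.EIS

/-- The bottom row of an element of `SL(2, ℤ)`. -/
def botRow (g : SL(2, ℤ)) : Fin 2 → ℤ := fun j => g 1 j

theorem botRow_apply (g : SL(2, ℤ)) (j : Fin 2) : botRow g j = g 1 j := rfl

theorem botRow_mul (g h : SL(2, ℤ)) :
    botRow (g * h) = botRow g ᵥ* (h : Matrix (Fin 2) (Fin 2) ℤ) := by
  funext j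
  simp only [botRow, Matrix.SpecialLinearGroup.coe_mul, Matrix.mul_apply, vecMul, dotProduct]

theorem botRow_one : botRow 1 = ![0, 1] := by
  funext j
  fin_cases j <;> simp [botRow]

theorem vecMul_inv_eq_iff (g : SL(2, ℤ)) (u v : Fin 2 → ℤ) :
    u ᵥ* ((g⁻¹ : SL(2, ℤ)) : Matrix (Fin 2) (Fin 2) ℤ) = v ↔
      u = v ᵥ* (g : Matrix (Fin 2) (Fin 2) ℤ) := by
  rw [← vecMulEquiv_symm_apply, ← vecMulEquiv_apply, Equiv.symm_apply_eq]

variable (Γ : Subgroup SL(2, ℤ)) (χ : Γ →* ℂˣ)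

/-- `χ` is trivial on the elements of `Γ` with bottom row `(0, 1)` (upper unipotent elements). -/
def TrivOnUnip : Prop := ∀ γ : Γ, botRow (γ : SL(2, ℤ)) = ![0, 1] → χ γ = 1

open Classical in
/-- The weight `χ(γ)⁻¹` on the bottom row of `γ ∈ Γ`, and `0` off the bottom rows of `Γ`. -/
noncomputable def rowWeight (v : Fin 2 → ℤ) : ℂ :=
  if h : ∃ γ : Γ, botRow (γ : SL(2, ℤ)) = v then (((χ h.choose)⁻¹ : ℂˣ) : ℂ) else 0

variable {Γ χ}

theorem TrivOnUnip.eq_of_botRow_eq (hχ : TrivOnUnip Γ χ) {γ γ' : Γ}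
    (h : botRow (γ' : SL(2, ℤ)) = botRow (γ : SL(2, ℤ))) : χ γ' = χ γ := by
  have h1 : botRow ((γ' * γ⁻¹ : Γ) : SL(2, ℤ)) = ![0, 1] := by
    rw [Subgroup.coe_mul, Subgroup.coe_inv, botRow_mul, h, ← botRow_mul, mul_inv_cancel,
      botRow_one]
  have h2 := hχ _ h1
  rw [map_mul, map_inv, mul_inv_eq_one] at h2
  exact h2

theorem rowWeight_botRow (hχ : TrivOnUnip Γ χ) (γ : Γ) :
    rowWeight Γ χ (botRow (γ : SL(2, ℤ))) = (((χ γ)⁻¹ : ℂˣ) : ℂ) := by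
  classical
  have h : ∃ γ' : Γ, botRow (γ' : SL(2, ℤ)) = botRow (γ : SL(2, ℤ)) := ⟨γ, rfl⟩
  rw [rowWeight, dif_pos h, hχ.eq_of_botRow_eq h.choose_spec]

theorem rowWeight_of_not_exists {v : Fin 2 → ℤ} (h : ¬ ∃ γ : Γ, botRow (γ : SL(2, ℤ)) = v) :
    rowWeight Γ χ v = 0 := by
  classical
  rw [rowWeight, dif_neg h]

/-- The weight is multiplied by `(χ δ)⁻¹` under right multiplication of the row by `δ ∈ Γ`. -/
theorem rowWeight_vecMul (hχ : TrivOnUnip Γ χ) (δ : Γ) (u : Fin 2 → ℤ) :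
    rowWeight Γ χ (u ᵥ* ((δ : SL(2, ℤ)) : Matrix (Fin 2) (Fin 2) ℤ)) =
      rowWeight Γ χ u * (((χ δ)⁻¹ : ℂˣ) : ℂ) := by
  by_cases h : ∃ γ : Γ, botRow (γ : SL(2, ℤ)) = u
  · obtain ⟨γ, rfl⟩ := h
    rw [← botRow_mul, ← Subgroup.coe_mul, rowWeight_botRow hχ, rowWeight_botRow hχ, map_mul,
      mul_inv, Units.val_mul]
  · have h' : ¬ ∃ γ : Γ, botRow (γ : SL(2, ℤ)) = u ᵥ* ((δ : SL(2, ℤ)) : Matrix (Fin 2) (Fin 2) ℤ) := by
      rintro ⟨γ, hγ⟩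
      refine h ⟨γ * δ⁻¹, ?_⟩
      rw [Subgroup.coe_mul, Subgroup.coe_inv, botRow_mul, hγ, vecMul_inv_eq_iff]
    rw [rowWeight_of_not_exists h, rowWeight_of_not_exists h', zero_mul]

theorem slashWeight_rowWeight (hχ : TrivOnUnip Γ χ) (δ : Γ) :
    slashWeight (δ : SL(2, ℤ)) (rowWeight Γ χ) = fun v => ((χ δ : ℂˣ) : ℂ) * rowWeight Γ χ v := by
  funext v
  have := rowWeight_vecMul hχ δ⁻¹ v
  rw [Subgroup.coe_inv] at this
  rw [slashWeight_apply, this, map_inv, inv_inv, mul_comm]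

theorem norm_rowWeight_le (hn : ∀ γ : Γ, ‖((χ γ : ℂˣ) : ℂ)‖ = 1) (v : Fin 2 → ℤ) :
    ‖rowWeight Γ χ v‖ ≤ 1 := by
  classical
  rw [rowWeight]
  split_ifs with h
  · rw [Units.val_inv_eq_inv_val, norm_inv, hn, inv_one]
  · simp

theorem bddWeight_rowWeight (hn : ∀ γ : Γ, ‖((χ γ : ℂˣ) : ℂ)‖ = 1) :
    BddWeight (rowWeight Γ χ) := ⟨1, norm_rowWeight_le hn⟩

/-- A character of finite order has values of norm one. -/
theorem norm_eq_one_of_pow_eq_one {n : ℕ} (hn : n ≠ 0) (hχn : χ ^ n = 1) (γ : Γ) :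
    ‖((χ γ : ℂˣ) : ℂ)‖ = 1 := by
  have h1 : (χ γ) ^ n = 1 := by
    have := DFunLike.congr_fun hχn γ
    simpa using this
  have h2 : ((χ γ : ℂˣ) : ℂ) ^ n = 1 := by
    rw [← Units.val_pow_eq_pow_val, h1, Units.val_one]
  exact Complex.norm_eq_one_of_pow_eq_one h2 hn

variable (Γ χ)

/-- The Eisenstein series of weight `k` twisted by `χ`. -/
noncomputable def eisChi (k : ℤ) (z : ℍ) : ℂ := eisW k (rowWeight Γ χ) z

variable {Γ χ}

theorem eisW_const_mul (k : ℤ) (c : ℂ) (w : (Fin 2 → ℤ) → ℂ) (z : ℍ) :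
    eisW k (fun v => c * w v) z = c * eisW k w z := by
  simp only [eisW, mul_assoc]
  exact tsum_mul_left

/-- The transformation law of the twisted Eisenstein series. -/
theorem eisChi_smul (hχ : TrivOnUnip Γ χ) (k : ℤ) (δ : Γ) (z : ℍ) :
    eisChi Γ χ k ((δ : SL(2, ℤ)) • z) =
      ((χ δ : ℂˣ) : ℂ) * denom (δ : SL(2, ℤ)) z ^ k * eisChi Γ χ k z := by
  rw [eisChi, eisW_smul, slashWeight_rowWeight hχ, eisW_const_mul, eisChi]
  ring

theorem mdifferentiable_eisChi {k : ℤ} (hk : 3 ≤ k) (hn : ∀ γ : Γ, ‖((χ γ : ℂˣ) : ℂ)‖ = 1) :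
    MDiff (eisChi Γ χ k) :=
  mdifferentiable_eisW hk (bddWeight_rowWeight hn)

end Fermat.Agent.Gateway.EIS
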