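import Fermat.Agent.Gateway.EIS.Twisted
import Fermat.Agent.Gateway.EIS.AtInfty

/-!
P-GATEWAY, WP-EIS (helper72).  The value at `i∞` of the twisted Eisenstein series `eisChi Γ χ k`:
it equals `1 + rowWeight Γ χ ![0, -1] * (-1) ^ (-k)`; for even `k` and `χ` trivial on the
stabiliser of `∞` in `Γ` this is `1` or `2`, hence `eisChi Γ χ k` is not identically zero.
-/

set_option autoImplicit false

open UpperHalfPlane Complex Filter Function EisensteinSeries Matrix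
open scoped Manifold MatrixGroups Topology

namespace Fermat.Agent.Gateway.EIS

variable {Γ : Subgroup SL(2, ℤ)} {χ : Γ →* ℂˣ}

/-- `χ` is trivial on the stabiliser of `∞` in `Γ` (elements with lower left entry `0`). -/
def TrivOnStabInfty (Γ : Subgroup SL(2, ℤ)) (χ : Γ →* ℂˣ) : Prop :=
  ∀ γ : Γ, botRow (γ : SL(2, ℤ)) 0 = 0 → χ γ = 1

theorem TrivOnStabInfty.trivOnUnip (h : TrivOnStabInfty Γ χ) : TrivOnUnip Γ χ := by
  intro γ hγ
  refine h γ ?_
  rw [hγ]
  rfl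

/-- An element of `SL(2, ℤ)` with lower left entry `0` has trace `± 2`. -/
theorem trace_sq_of_botRow_zero {g : SL(2, ℤ)} (h : botRow g 0 = 0) :
    ((g : Matrix (Fin 2) (Fin 2) ℤ).trace) ^ 2 = 4 := by
  have hdet := g.det_coe
  rw [Matrix.det_fin_two] at hdet
  have h10 : (g : Matrix (Fin 2) (Fin 2) ℤ) 1 0 = 0 := h
  rw [h10, mul_zero, sub_zero] at hdet
  rw [Matrix.trace_fin_two]
  rcases Int.eq_one_or_neg_one_of_mul_eq_one' hdet with ⟨h1, h2⟩ | ⟨h1, h2⟩
  · rw [h1, h2]; norm_num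
  · rw [h1, h2]; norm_num

/-- Characters trivial on all elements of trace `t` with `t ^ 2 = 4` are trivial on the stabiliser
of `∞`. -/
theorem trivOnStabInfty_of_trace
    (h : ∀ γ : Γ, (((γ : SL(2, ℤ)) : Matrix (Fin 2) (Fin 2) ℤ).trace) ^ 2 = 4 → χ γ = 1) :
    TrivOnStabInfty Γ χ :=
  fun γ hγ => h γ (trace_sq_of_botRow_zero hγ)

/-- A bottom row of the form `(0, d)` has `d = ± 1`. -/
theorem eq_one_or_neg_one_of_botRow {g : SL(2, ℤ)} {d : ℤ} (h : botRow g = ![0, d]) :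
    d = 1 ∨ d = -1 := by
  have hdet := g.det_coe
  rw [Matrix.det_fin_two] at hdet
  have h10 : (g : Matrix (Fin 2) (Fin 2) ℤ) 1 0 = 0 := by
    have := congrFun h 0
    simpa [botRow] using this
  have h11 : (g : Matrix (Fin 2) (Fin 2) ℤ) 1 1 = d := by
    have := congrFun h 1
    simpa [botRow] using this
  rw [h10, mul_zero, sub_zero, h11] at hdet
  rcases Int.eq_one_or_neg_one_of_mul_eq_one' hdet with ⟨-, h2⟩ | ⟨-, h2⟩
  · exact Or.inl h2
  · exact Or.inr h2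

theorem rowWeight_zero_row_eq_zero {d : ℤ} (h1 : d ≠ 1) (h2 : d ≠ -1) :
    rowWeight Γ χ ![0, d] = 0 := by
  refine rowWeight_of_not_exists ?_
  rintro ⟨γ, hγ⟩
  rcases eq_one_or_neg_one_of_botRow hγ with h | h
  · exact h1 h
  · exact h2 h

theorem rowWeight_zero_one (hχ : TrivOnUnip Γ χ) : rowWeight Γ χ ![0, 1] = 1 := by
  have h := rowWeight_botRow hχ (1 : Γ)
  rw [Subgroup.coe_one, botRow_one, map_one, inv_one, Units.val_one] at h
  exact h

/-- The value at `i∞` of the twisted Eisenstein series. -/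
theorem eisWInfty_rowWeight (hχ : TrivOnUnip Γ χ) (k : ℤ) :
    eisWInfty k (rowWeight Γ χ) = 1 + rowWeight Γ χ ![0, -1] * (-1 : ℂ) ^ (-k) := by
  rw [eisWInfty, tsum_eq_sum (s := {1, -1})]
  · rw [Finset.sum_pair (by norm_num)]
    simp [rowWeight_zero_one hχ]
  · intro d hd
    simp only [Finset.mem_insert, Finset.mem_singleton, not_or] at hd
    rw [rowWeight_zero_row_eq_zero hd.1 hd.2, zero_mul]

/-- For `χ` trivial on the stabiliser of `∞`, the weight of the row `(0, -1)` is `0` or `1`. -/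
theorem rowWeight_zero_neg_one (hχ : TrivOnStabInfty Γ χ) :
    rowWeight Γ χ ![0, -1] = 0 ∨ rowWeight Γ χ ![0, -1] = 1 := by
  by_cases h : ∃ γ : Γ, botRow (γ : SL(2, ℤ)) = ![0, -1]
  · obtain ⟨γ, hγ⟩ := h
    right
    have h1 := rowWeight_botRow hχ.trivOnUnip γ
    rw [hγ] at h1
    rw [h1, hχ γ (by rw [hγ]; rfl), inv_one, Units.val_one]
  · exact Or.inl (rowWeight_of_not_exists h)

theorem eisWInfty_rowWeight_ne_zero (hχ : TrivOnStabInfty Γ χ) {k : ℤ} (hk : Even k) :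
    eisWInfty k (rowWeight Γ χ) ≠ 0 := by
  rw [eisWInfty_rowWeight hχ.trivOnUnip, Even.neg_one_zpow hk.neg, mul_one]
  rcases rowWeight_zero_neg_one hχ with h | h <;> rw [h] <;> norm_num

/-- **Limit at `i∞`** of the twisted Eisenstein series. -/
theorem tendsto_eisChi_atImInfty {k : ℤ} (hk : 3 ≤ k) (hn : ∀ γ : Γ, ‖((χ γ : ℂˣ) : ℂ)‖ = 1) :
    Tendsto (eisChi Γ χ k) atImInfty (𝓝 (eisWInfty k (rowWeight Γ χ))) :=
  tendsto_eisW_atImInfty hk (bddWeight_rowWeight hn)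

/-- The twisted Eisenstein series of even weight `k ≥ 4` is not identically zero. -/
theorem exists_eisChi_ne_zero {k : ℤ} (hk : 3 ≤ k) (hev : Even k)
    (hn : ∀ γ : Γ, ‖((χ γ : ℂˣ) : ℂ)‖ = 1) (hχ : TrivOnStabInfty Γ χ) :
    ∃ z : ℍ, eisChi Γ χ k z ≠ 0 :=
  eisW_ne_zero_of_eisWInfty_ne_zero hk (bddWeight_rowWeight hn) (eisWInfty_rowWeight_ne_zero hχ hev)

end Fermat.Agent.Gateway.EIS
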