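import Mathlib

/-!
P-GATEWAY, WP-EIS (helper72).  Weighted Eisenstein series

  `eisW k w z = ∑' v : Fin 2 → ℤ, w v * (v 0 * z + v 1) ^ (-k)`

for a bounded weight function `w : (Fin 2 → ℤ) → ℂ` and `3 ≤ k`: absolute convergence,
holomorphy on the upper half-plane, and the transformation rule under all of `SL(2, ℤ)`
(the slash by `g` replaces `w` by `v ↦ w (v ᵥ* g⁻¹)`).
-/

set_option autoImplicit false

open UpperHalfPlane Complex Filter Function EisensteinSeries Matrix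
open scoped Manifold MatrixGroups Topology

namespace Fermat.Agent.Gateway.EIS

/-- The weighted Eisenstein series of weight `k` with weight function `w`. -/
noncomputable def eisW (k : ℤ) (w : (Fin 2 → ℤ) → ℂ) (z : ℍ) : ℂ :=
  ∑' v : Fin 2 → ℤ, w v * eisSummand k v z

/-- `w` is a bounded weight function. -/
def BddWeight (w : (Fin 2 → ℤ) → ℂ) : Prop := ∃ C : ℝ, ∀ v, ‖w v‖ ≤ C

theorem BddWeight.comp {w : (Fin 2 → ℤ) → ℂ} (hw : BddWeight w) (e : (Fin 2 → ℤ) → (Fin 2 → ℤ)) :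
    BddWeight (fun v => w (e v)) := by
  obtain ⟨C, hC⟩ := hw
  exact ⟨C, fun v => hC _⟩

theorem BddWeight.nonneg_bound {w : (Fin 2 → ℤ) → ℂ} (hw : BddWeight w) :
    ∃ C : ℝ, 0 ≤ C ∧ ∀ v, ‖w v‖ ≤ C := by
  obtain ⟨C, hC⟩ := hw
  exact ⟨C, (norm_nonneg _).trans (hC 0), hC⟩

theorem summable_norm_eisW_term {k : ℤ} (hk : 3 ≤ k) {w : (Fin 2 → ℤ) → ℂ} (hw : BddWeight w)
    (z : ℍ) : Summable fun v : Fin 2 → ℤ => ‖w v * eisSummand k v z‖ := by
  obtain ⟨C, hC0, hC⟩ := hw.nonneg_bound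
  refine ((summable_norm_eisSummand hk z).mul_left C).of_nonneg_of_le (fun _ => norm_nonneg _) ?_
  intro v
  rw [norm_mul]
  exact mul_le_mul_of_nonneg_right (hC v) (norm_nonneg _)

theorem summable_eisW_term {k : ℤ} (hk : 3 ≤ k) {w : (Fin 2 → ℤ) → ℂ} (hw : BddWeight w)
    (z : ℍ) : Summable fun v : Fin 2 → ℤ => w v * eisSummand k v z :=
  (summable_norm_eisW_term hk hw z).of_norm

theorem hasSum_eisW {k : ℤ} (hk : 3 ≤ k) {w : (Fin 2 → ℤ) → ℂ} (hw : BddWeight w) (z : ℍ) :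
    HasSum (fun v : Fin 2 → ℤ => w v * eisSummand k v z) (eisW k w z) :=
  (summable_eisW_term hk hw z).hasSum

/-! ### Locally uniform convergence and holomorphy -/

theorem eisW_tendstoLocallyUniformly {k : ℤ} (hk : 3 ≤ k) {w : (Fin 2 → ℤ) → ℂ}
    (hw : BddWeight w) :
    TendstoLocallyUniformly (fun (s : Finset (Fin 2 → ℤ)) ↦ (∑ x ∈ s, w x * eisSummand k x ·))
      (eisW k w ·) Filter.atTop := by
  obtain ⟨C, hC0, hC⟩ := hw.nonneg_bound
  have hk' : (2 : ℝ) < k := by norm_cast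
  have p_sum : Summable fun x : Fin 2 → ℤ ↦ ‖x‖ ^ (-k) :=
    mod_cast (summable_one_div_norm_rpow hk')
  simp only [tendstoLocallyUniformly_iff_forall_isCompact, eisW]
  intro K hK
  obtain ⟨A, B, hB, HABK⟩ := subset_verticalStrip_of_isCompact hK
  refine (tendstoUniformlyOn_tsum (hu := p_sum.mul_left <| C * r ⟨⟨A, B⟩, hB⟩ ^ (-k : ℝ))
    (fun p z hz ↦ ?_)).mono HABK
  rw [norm_mul, mul_assoc]
  refine mul_le_mul (hC p) ?_ (norm_nonneg _) hC0
  simpa only [eisSummand, one_div, ← _root_.zpow_neg, norm_zpow, ← Real.rpow_intCast,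
    Int.cast_neg] using summand_bound_of_mem_verticalStrip (by positivity) p hB hz

theorem eisW_tendstoLocallyUniformlyOn {k : ℤ} (hk : 3 ≤ k) {w : (Fin 2 → ℤ) → ℂ}
    (hw : BddWeight w) :
    TendstoLocallyUniformlyOn (fun (s : Finset (Fin 2 → ℤ)) ↦
      ↑ₕ(fun (z : ℍ) ↦ ∑ x ∈ s, w x * eisSummand k x z)) (↑ₕ(eisW k w))
          Filter.atTop {z : ℂ | 0 < z.im} := by
  rw [← upperHalfPlaneSet, ← range_coe, ← Set.image_univ]
  apply TendstoLocallyUniformlyOn.comp (s := ⊤) _ _ _ (OpenPartialHomeomorph.continuousOn_symm _)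
  · simp only [Set.top_eq_univ, tendstoLocallyUniformlyOn_univ]
    exact eisW_tendstoLocallyUniformly hk hw
  · simp only [Topology.IsOpenEmbedding.toOpenPartialHomeomorph_target, Set.top_eq_univ,
      Set.mapsTo_range_iff, Set.mem_univ, forall_const]

theorem mdifferentiable_eisW {k : ℤ} (hk : 3 ≤ k) {w : (Fin 2 → ℤ) → ℂ} (hw : BddWeight w) :
    MDiff (eisW k w) := by
  intro τ
  suffices DifferentiableAt ℂ (↑ₕ(eisW k w)) τ.1 by
    convert!
      MDifferentiableAt.comp τ (DifferentiableAt.mdifferentiableAt this) τ.mdifferentiable_coe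
    exact funext fun z ↦ (comp_ofComplex (eisW k w) z).symm
  refine DifferentiableOn.differentiableAt ?_ (isOpen_upperHalfPlaneSet.mem_nhds τ.2)
  refine (eisW_tendstoLocallyUniformlyOn hk hw).differentiableOn
    (Eventually.of_forall fun s ↦ ?_) isOpen_upperHalfPlaneSet
  have : (↑ₕ(fun (z : ℍ) ↦ ∑ x ∈ s, w x * eisSummand k x z)) =
      fun z : ℂ => ∑ x ∈ s, w x * (↑ₕ(eisSummand k x)) z := by
    funext z
    simp [Function.comp]
  rw [this]
  exact DifferentiableOn.fun_sum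
    fun x _ ↦ (eisSummand_extension_differentiableOn k x).const_mul (w x)

/-! ### The action of `SL(2, ℤ)` -/

/-- Right multiplication of row vectors by an element of `SL(2, ℤ)`, as a permutation. -/
def vecMulEquiv (g : SL(2, ℤ)) : (Fin 2 → ℤ) ≃ (Fin 2 → ℤ) where
  toFun v := v ᵥ* (g : Matrix (Fin 2) (Fin 2) ℤ)
  invFun v := v ᵥ* ((g⁻¹ : SL(2, ℤ)) : Matrix (Fin 2) (Fin 2) ℤ)
  left_inv v := by simp_rw [vecMul_vecMul, ← Matrix.SpecialLinearGroup.coe_mul, mul_inv_cancel,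
    Matrix.SpecialLinearGroup.coe_one, vecMul_one]
  right_inv v := by simp_rw [vecMul_vecMul, ← Matrix.SpecialLinearGroup.coe_mul, inv_mul_cancel,
    Matrix.SpecialLinearGroup.coe_one, vecMul_one]

@[simp] theorem vecMulEquiv_apply (g : SL(2, ℤ)) (v : Fin 2 → ℤ) :
    vecMulEquiv g v = v ᵥ* (g : Matrix (Fin 2) (Fin 2) ℤ) := rfl

@[simp] theorem vecMulEquiv_symm_apply (g : SL(2, ℤ)) (v : Fin 2 → ℤ) :
    (vecMulEquiv g).symm v = v ᵥ* ((g⁻¹ : SL(2, ℤ)) : Matrix (Fin 2) (Fin 2) ℤ) := rfl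

theorem vecMulEquiv_mul (g h : SL(2, ℤ)) (v : Fin 2 → ℤ) :
    vecMulEquiv (g * h) v = vecMulEquiv h (vecMulEquiv g v) := by
  simp only [vecMulEquiv_apply, Matrix.SpecialLinearGroup.coe_mul, vecMul_vecMul]

/-- The weight function transported by `g`: `(slashWeight g w) v = w (v ᵥ* g⁻¹)`. -/
def slashWeight (g : SL(2, ℤ)) (w : (Fin 2 → ℤ) → ℂ) : (Fin 2 → ℤ) → ℂ :=
  fun v => w ((vecMulEquiv g).symm v)

theorem slashWeight_apply (g : SL(2, ℤ)) (w : (Fin 2 → ℤ) → ℂ) (v : Fin 2 → ℤ) :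
    slashWeight g w v = w (v ᵥ* ((g⁻¹ : SL(2, ℤ)) : Matrix (Fin 2) (Fin 2) ℤ)) := rfl

theorem slashWeight_vecMul (g : SL(2, ℤ)) (w : (Fin 2 → ℤ) → ℂ) (v : Fin 2 → ℤ) :
    slashWeight g w (v ᵥ* (g : Matrix (Fin 2) (Fin 2) ℤ)) = w v := by
  rw [slashWeight, ← vecMulEquiv_apply, Equiv.symm_apply_apply]

theorem BddWeight.slashWeight {w : (Fin 2 → ℤ) → ℂ} (hw : BddWeight w) (g : SL(2, ℤ)) :
    BddWeight (slashWeight g w) := hw.comp _

@[simp] theorem slashWeight_one (w : (Fin 2 → ℤ) → ℂ) : slashWeight 1 w = w := by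
  funext v
  simp only [slashWeight_apply, inv_one, Matrix.SpecialLinearGroup.coe_one, vecMul_one]

theorem slashWeight_mul (g h : SL(2, ℤ)) (w : (Fin 2 → ℤ) → ℂ) :
    slashWeight (g * h) w = slashWeight h (slashWeight g w) := by
  funext v
  simp only [slashWeight_apply, _root_.mul_inv_rev, Matrix.SpecialLinearGroup.coe_mul, vecMul_vecMul]

/-- The transformation rule of weighted Eisenstein series under `SL(2, ℤ)`: no hypothesis on
`w` or `k` is needed, both sides are `tsum`s over the same family up to reindexing. -/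
theorem eisW_smul (k : ℤ) (w : (Fin 2 → ℤ) → ℂ) (g : SL(2, ℤ)) (z : ℍ) :
    eisW k w (g • z) = denom g z ^ k * eisW k (slashWeight g w) z := by
  simp only [eisW, eisSummand_SL2_apply]
  rw [← tsum_mul_left,
    ← (vecMulEquiv g).tsum_eq (fun u => denom g z ^ k * (slashWeight g w u * eisSummand k u z))]
  refine tsum_congr fun v => ?_
  rw [vecMulEquiv_apply, slashWeight_vecMul]
  ring

end Fermat.Agent.Gateway.EIS
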